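import Fermat.Prelude.Def_CuspForm_Newforms
import Fermat.Agent.HeckeEigen.Forms
import Fermat.Agent.HeckePar.Cosets

/-!
# Changing the level of cusp forms on `Γ₀(N)`

* `ofInvariant` : reinterpret a cusp form on `Γ₀(N)` whose underlying function is invariant under
  `Γ₀(M)` as a cusp form on `Γ₀(M)`;
* `restr` : the inclusion `S_k(Γ₀(M)) → S_k(Γ₀(N))` for `M ∣ N`;
* `exists_eigenform_of_joint` : extraction of a normalised eigenform;
* `exists_newform`, `exists_eigenform_raise`.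
-/

set_option autoImplicit false

noncomputable section

open CongruenceSubgroup ModularFormClass FermatAgent.HeckeEigen Matrix.SpecialLinearGroup
open scoped MatrixGroups ModularForm

namespace Fermat.Agent.Oldforms

variable {N M : ℕ} {k : ℤ}

theorem isCusp_Gamma0_iff (N M : ℕ) [NeZero N] [NeZero M] (c : OnePoint ℝ) :
    IsCusp c (Gamma0 N : Subgroup (GL (Fin 2) ℝ)) ↔
      IsCusp c (Gamma0 M : Subgroup (GL (Fin 2) ℝ)) :=
  (Subgroup.IsArithmetic.isCusp_iff_isCusp_SL2Z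
      (Gamma0 N : Subgroup (GL (Fin 2) ℝ))).trans
    (Subgroup.IsArithmetic.isCusp_iff_isCusp_SL2Z
      (Gamma0 M : Subgroup (GL (Fin 2) ℝ))).symm

/-- Change of level for a cusp form with the right invariance. -/
def ofInvariant [NeZero N] (M : ℕ) [NeZero M] (f : CuspForm (Gamma0 N) k)
    (h : ∀ γ ∈ (Gamma0 M : Subgroup (GL (Fin 2) ℝ)), (⇑f : UpperHalfPlane → ℂ) ∣[k] γ = ⇑f) :
    CuspForm (Gamma0 M) k where
  toFun := ⇑f
  slash_action_eq' := h
  holo' := CuspFormClass.holo f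
  zero_at_cusps' hc := CuspFormClass.zero_at_cusps f ((isCusp_Gamma0_iff N M _).mpr hc)

@[simp] theorem coe_ofInvariant [NeZero N] [NeZero M] (f : CuspForm (Gamma0 N) k)
    (h : ∀ γ ∈ (Gamma0 M : Subgroup (GL (Fin 2) ℝ)), (⇑f : UpperHalfPlane → ℂ) ∣[k] γ = ⇑f) :
    (⇑(ofInvariant M f h) : UpperHalfPlane → ℂ) = ⇑f := rfl

theorem Gamma0_le_of_dvd (h : M ∣ N) : Gamma0 N ≤ Gamma0 M := by
  intro g hg
  rw [Gamma0_mem] at hg ⊢
  have h1 : (N : ℤ) ∣ g 1 0 := (ZMod.intCast_zmod_eq_zero_iff_dvd _ _).mp hg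
  exact (ZMod.intCast_zmod_eq_zero_iff_dvd _ _).mpr ((Int.natCast_dvd_natCast.mpr h).trans h1)

theorem Gamma0_GL_le_of_dvd (h : M ∣ N) :
    (Gamma0 N : Subgroup (GL (Fin 2) ℝ)) ≤ (Gamma0 M : Subgroup (GL (Fin 2) ℝ)) :=
  Subgroup.map_mono (Gamma0_le_of_dvd h)

/-- The inclusion `S_k(Γ₀(M)) → S_k(Γ₀(N))` for `M ∣ N`. -/
def restr (N : ℕ) [NeZero N] (h : M ∣ N) (k : ℤ) :
    CuspForm (Gamma0 M) k →ₗ[ℂ] CuspForm (Gamma0 N) k :=
  haveI : NeZero M := ⟨fun h0 => NeZero.ne N (Nat.eq_zero_of_zero_dvd (h0 ▸ h))⟩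
  { toFun := fun f => ofInvariant N f fun γ hγ =>
      SlashInvariantFormClass.slash_action_eq f γ (Gamma0_GL_le_of_dvd h hγ)
    map_add' := fun _ _ => DFunLike.coe_injective rfl
    map_smul' := fun _ _ => DFunLike.coe_injective rfl }

@[simp] theorem coe_restr [NeZero N] (h : M ∣ N) (f : CuspForm (Gamma0 M) k) :
    (⇑(restr N h k f) : UpperHalfPlane → ℂ) = ⇑f := rfl

theorem restr_injective [NeZero N] (h : M ∣ N) : Function.Injective (restr N h k) := by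
  intro f g hfg
  apply DFunLike.coe_injective
  have := congrArg (fun F : CuspForm (Gamma0 N) k => (⇑F : UpperHalfPlane → ℂ)) hfg
  simpa using this

/-- Hecke operators away from `N` are compatible with the inclusion. -/
theorem heckeOp_restr [NeZero N] [NeZero M] (h : M ∣ N) (p : Nat.Primes)
    (hp : (p : ℕ) ∣ N → (p : ℕ) ∣ M) (f : CuspForm (Gamma0 M) k) :
    heckeOp N k p (restr N h k f) = restr N h k (heckeOp M k p f) := by
  by_cases hpM : (p : ℕ) ∣ M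
  · have hpN : (p : ℕ) ∣ N := hpM.trans h
    rw [heckeOp_of_dvd hpN, heckeOp_of_dvd hpM]
    exact DFunLike.coe_injective rfl
  · have hpN : ¬ (p : ℕ) ∣ N := fun h' => hpM (hp h')
    rw [heckeOp_of_not_dvd hpN, heckeOp_of_not_dvd hpM]
    exact DFunLike.coe_injective rfl

section Extract

variable [NeZero N]

/-- If a nonzero cusp form is an eigenvector for the Hecke operators at the primes in `P`, there is
a normalised eigenform with the same eigenvalues at the primes in `P`. -/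
theorem exists_eigenform_of_joint (P : Set Nat.Primes) (χ : Nat.Primes → ℂ)
    (f : CuspForm (Gamma0 N) 2) (hf : f ≠ 0) (h : ∀ p ∈ P, heckeOp N 2 p f = χ p • f) :
    ∃ g : CuspForm (Gamma0 N) 2, g.IsNormalizedEigenform ∧ ∀ p ∈ P, qCoeff ⇑g p = χ p := by
  set E : Submodule ℂ (CuspForm (Gamma0 N) 2) :=
    ⨅ p ∈ P, (heckeOp N 2 p).eigenspace (χ p) with hE
  have hmemE : ∀ x, x ∈ E ↔ ∀ p ∈ P, heckeOp N 2 p x = χ p • x := by
    intro x
    simp only [hE, Submodule.mem_iInf, Module.End.mem_eigenspace_iff]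
  have hfE : f ∈ E := (hmemE f).mpr h
  have hmap : ∀ q : Nat.Primes, ∀ x ∈ E, heckeOp N 2 q x ∈ E := by
    intro q x hx
    rw [hmemE] at hx ⊢
    intro p hp
    have := congrArg (fun A : Module.End ℂ (CuspForm (Gamma0 N) 2) => A x)
      (heckeOp_comm (N := N) (k := 2) p q).eq
    simp only [Module.End.mul_apply] at this
    rw [this, hx p hp, map_smul]
  have : Nontrivial E := ⟨⟨⟨f, hfE⟩, 0, fun h0 => hf (congrArg Subtype.val h0)⟩⟩
  obtain ⟨ψ, v, hv, hψ⟩ := exists_joint_eigenvector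
    (fun q : Nat.Primes => (heckeOp N 2 q).restrict (hmap q)) (by
      intro i j
      apply LinearMap.ext
      intro x
      apply Subtype.ext
      have := congrArg (fun (A : Module.End ℂ (CuspForm (Gamma0 N) 2)) => A x)
        (heckeOp_comm (N := N) (k := 2) i j).eq
      simpa using this)
  have hv0 : (v : CuspForm (Gamma0 N) 2) ≠ 0 := fun h => hv (Subtype.ext h)
  have hψ' : ∀ j, heckeOp N 2 j v = ψ j • (v : CuspForm (Gamma0 N) 2) := by
    intro j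
    have := congrArg Subtype.val (hψ j)
    simpa using this
  obtain ⟨g, hg, hg2, hg3⟩ := exists_isNormalizedEigenform_of_eigen hψ' hv0
  refine ⟨g, hg, fun p hp => ?_⟩
  rw [hg3 p]
  have h1 := (hmemE v).mp v.2 p hp
  rw [hψ' p] at h1
  exact smul_left_injective ℂ hv0 h1

end Extract

/-- **Raising the level**: a normalised eigenform of level `M` gives one of level `N`, `M ∣ N`, with
the same coefficients at the primes `p` such that `p ∣ N → p ∣ M`. -/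
theorem exists_eigenform_raise [NeZero N] (h : M ∣ N) (g : CuspForm (Gamma0 M) 2)
    (hg : g.IsNormalizedEigenform) :
    ∃ f : CuspForm (Gamma0 N) 2, f.IsNormalizedEigenform ∧
      ∀ p : ℕ, p.Prime → (p ∣ N → p ∣ M) → qCoeff ⇑f p = qCoeff ⇑g p := by
  have : NeZero M := ⟨fun h0 => NeZero.ne N (Nat.eq_zero_of_zero_dvd (h0 ▸ h))⟩
  obtain ⟨f, hf, hf2⟩ := exists_eigenform_of_joint (N := N)
    {p : Nat.Primes | (p : ℕ) ∣ N → (p : ℕ) ∣ M} (fun p => qCoeff ⇑g p) (restr N h 2 g)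
    (fun h0 => hg.ne_zero (restr_injective h (by rw [h0, map_zero])))
    (fun p hp => by
      rw [heckeOp_restr h p hp, heckeOp_eq_of_isNormalizedEigenform hg p, map_smul])
  exact ⟨f, hf, fun p hp hpN => hf2 ⟨p, hp⟩ hpN⟩

/-- **Existence of the newform** attached to a normalised eigenform. -/
theorem exists_newform (hN : 0 < N) (f : CuspForm (Gamma0 N) 2) (hf : f.IsNormalizedEigenform) :
    ∃ M : ℕ, M ∣ N ∧ 0 < M ∧ ∃ g : CuspForm (Gamma0 M) 2, g.IsNewform ∧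
      ∀ ℓ : ℕ, ℓ.Prime → ¬ ℓ ∣ N → qCoeff ⇑g ℓ = qCoeff ⇑f ℓ := by
  classical
  have hex : ∃ M : ℕ, M ∣ N ∧ ∃ g : CuspForm (Gamma0 M) 2, g.IsNormalizedEigenform ∧
      ∀ ℓ : ℕ, ℓ.Prime → ¬ ℓ ∣ N → qCoeff ⇑g ℓ = qCoeff ⇑f ℓ :=
    ⟨N, dvd_rfl, f, hf, fun _ _ _ => rfl⟩
  obtain ⟨M, ⟨hMN, g, hg, hgf⟩, hmin⟩ : ∃ M : ℕ, (M ∣ N ∧ ∃ g : CuspForm (Gamma0 M) 2,
      g.IsNormalizedEigenform ∧ ∀ ℓ : ℕ, ℓ.Prime → ¬ ℓ ∣ N → qCoeff ⇑g ℓ = qCoeff ⇑f ℓ) ∧
      ∀ m < M, ¬ (m ∣ N ∧ ∃ g : CuspForm (Gamma0 m) 2,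
      g.IsNormalizedEigenform ∧ ∀ ℓ : ℕ, ℓ.Prime → ¬ ℓ ∣ N → qCoeff ⇑g ℓ = qCoeff ⇑f ℓ) :=
    ⟨Nat.find hex, Nat.find_spec hex, fun m hm => Nat.find_min hex hm⟩
  have hM0 : 0 < M := Nat.pos_of_ne_zero fun h0 => by
    rw [h0] at hMN
    exact hN.ne' (Nat.eq_zero_of_zero_dvd hMN)
  refine ⟨M, hMN, hM0, g, ⟨hg, ?_⟩, hgf⟩
  rintro M' hM'M hne ⟨g', hg', hgg'⟩
  have hM'N : M' ∣ N := hM'M.trans hMN
  have hlt : M' < M := lt_of_le_of_ne (Nat.le_of_dvd hM0 hM'M) hne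
  refine hmin M' hlt ⟨hM'N, g', hg', fun ℓ hℓ hℓN => ?_⟩
  rw [hgg' ℓ hℓ fun h => hℓN (h.trans hMN), hgf ℓ hℓ hℓN]

end Fermat.Agent.Oldforms

end
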