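import Fermat.Agent.Oldforms.AtkinLehner

/-!
# Trace to lower level and the coefficient `a_q` of newforms
-/

set_option autoImplicit false

noncomputable section

open CongruenceSubgroup ModularFormClass FermatAgent.HeckeEigen Matrix.SpecialLinearGroup
open Fermat.Agent.HeckePar
open scoped MatrixGroups ModularForm

namespace Fermat.Agent.Oldforms

/-- scalar matrix -/
def scal (q : ℕ) (hq : q ≠ 0) : GL (Fin 2) ℝ :=
  ModularForm.upperTriangularGL q 0 q (mul_ne_zero (by exact_mod_cast hq) (by exact_mod_cast hq))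

theorem val_scal {q : ℕ} (hq : q ≠ 0) :
    ((scal q hq : GL (Fin 2) ℝ) : Matrix (Fin 2) (Fin 2) ℝ) =
      (!![(q : ℤ), 0; 0, (q : ℤ)]).map (Int.cast) := by
  rw [scal, ModularForm.val_upperTriangularGL]
  ext i j
  fin_cases i <;> fin_cases j <;> simp

theorem slash_scal {q : ℕ} (hq : q ≠ 0) (f : UpperHalfPlane → ℂ) : f ∣[(2 : ℤ)] scal q hq = f := by
  have hq' : (q : ℂ) ≠ 0 := by exact_mod_cast hq
  have hqr : (0 : ℝ) < q := by exact_mod_cast Nat.pos_of_ne_zero hq
  have hdet : ((scal q hq).det : ℝ) = (q : ℝ) * q := by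
    rw [Matrix.GeneralLinearGroup.val_det_apply, scal, ModularForm.val_upperTriangularGL,
      Matrix.det_fin_two_of]
    ring
  have hpos : 0 < ((scal q hq).det : ℝ) := by rw [hdet]; positivity
  ext τ
  have hden : UpperHalfPlane.denom (scal q hq) τ = q := by
    simp [UpperHalfPlane.denom, scal]
  have hsm : scal q hq • τ = τ := by
    apply UpperHalfPlane.ext
    rw [UpperHalfPlane.coe_smul_of_det_pos hpos, hden]
    simp [UpperHalfPlane.num, scal, hq']
  rw [ModularForm.slash_apply, hden, hsm, hdet, UpperHalfPlane.σ, if_pos hpos]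
  have : |(q : ℝ) * q| = (q : ℝ) * q := abs_of_pos (by positivity)
  rw [this]
  simp only [ContinuousAlgEquiv.refl_apply]
  push_cast
  rw [zpow_one, zpow_neg, zpow_ofNat]
  field_simp

namespace ALData

variable {N M q : ℕ} (D : ALData N M q)

/-- `w_q² = 1` in weight two. -/
theorem w_w (f : CuspForm (Gamma0 N) 2) : D.w 2 (D.w 2 f) = f := by
  have h := D.h
  have hN := D.hNZ
  apply DFunLike.coe_injective
  rw [coe_w, coe_w, ← SlashAction.slash_mul]
  set g : SL(2, ℤ) := ⟨!![q * D.x ^ 2 + D.y * M, D.y * (D.x + 1); (N : ℤ) * (D.x + 1),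
    M * D.y + q], by
      rw [Matrix.det_fin_two_of, hN]
      linear_combination ((1 : ℤ) + q * D.x - M * D.y) * h⟩ with hg
  have hgN : g ∈ Gamma0 N :=
    Gamma0_mem.mpr ((ZMod.intCast_zmod_eq_zero_iff_dvd _ _).mpr ⟨D.x + 1, rfl⟩)
  have hWW : D.W * D.W = scal q D.hq.ne_zero * mapGL ℝ g := by
    refine GL_eq_of_int D.val_W D.val_W (val_scal _) (val_mapGL _) ?_
    ext i j
    fin_cases i <;> fin_cases j <;>
      simp [intW, hg, Matrix.mul_apply, Fin.sum_univ_two] <;> try rw [hN]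
    · ring
    · ring
    · ring
    · ring
  have hinv : (⇑f : UpperHalfPlane → ℂ) ∣[(2 : ℤ)] (mapGL ℝ g) = ⇑f :=
    SlashInvariantFormClass.slash_action_eq f (mapGL ℝ g)
      (show mapGL ℝ g ∈ (Gamma0 N : Subgroup (GL (Fin 2) ℝ)) from
        Subgroup.mem_map_of_mem _ hgN)
  rw [hWW, SlashAction.slash_mul, slash_scal, hinv]

/-- coset representatives for `Γ₀(N) \ Γ₀(M)`. -/
def rep : Option (ZMod q) → SL(2, ℤ)
  | none => 1
  | some j => D.beta * ModularGroup.T ^ (j.val : ℤ)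

theorem rep_none : D.rep none = 1 := rfl

theorem rep_some_val (j : ZMod q) : (D.rep (some j) : Matrix (Fin 2) (Fin 2) ℤ) =
    !![D.x, D.x * j.val + D.y; (M : ℤ), M * j.val + q] := by
  rw [rep, Matrix.SpecialLinearGroup.coe_mul, ModularGroup.coe_T_zpow]
  ext i k
  fin_cases i <;> fin_cases k <;> simp [beta, Matrix.mul_apply, Fin.sum_univ_two]

theorem rep_mem (x : Option (ZMod q)) : D.rep x ∈ Gamma0 M := by
  cases x with
  | none => exact one_mem _
  | some j =>
    refine Gamma0_mem.mpr ((ZMod.intCast_zmod_eq_zero_iff_dvd _ _).mpr ?_)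
    rw [D.rep_some_val j]
    simp

theorem mem_Gamma0_iff_dvd {n : ℕ} {g : SL(2, ℤ)} : g ∈ Gamma0 n ↔ (n : ℤ) ∣ g 1 0 := by
  rw [Gamma0_mem, ZMod.intCast_zmod_eq_zero_iff_dvd]

include D in
theorem hcop : IsCoprime (q : ℤ) (M : ℤ) := ⟨D.x, -D.y, by linear_combination D.h⟩

include D in
theorem dvd_N_iff (z : ℤ) : (N : ℤ) ∣ z ↔ (q : ℤ) ∣ z ∧ (M : ℤ) ∣ z := by
  rw [D.hNZ]
  exact ⟨fun h => ⟨(dvd_mul_right _ _).trans h, (dvd_mul_left _ _).trans h⟩,
    fun h => D.hcop.mul_dvd h.1 h.2⟩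

/-- Every element of `Γ₀(M)` is in `Γ₀(N) * rep x` for some `x`. -/
theorem exists_rep (g : SL(2, ℤ)) (hg : g ∈ Gamma0 M) :
    ∃ x : Option (ZMod q), ∃ g' ∈ Gamma0 N, g = g' * D.rep x := by
  have : Fact q.Prime := ⟨D.hq⟩
  have : NeZero q := ⟨D.hq.ne_zero⟩
  rw [mem_Gamma0_iff_dvd] at hg
  by_cases hc : (q : ℤ) ∣ g 1 0
  · exact ⟨none, g, mem_Gamma0_iff_dvd.mpr ((D.dvd_N_iff _).mpr ⟨hc, hg⟩), by
      rw [rep_none, mul_one]⟩
  · have hc' : ((g 1 0 : ℤ) : ZMod q) ≠ 0 := by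
      rwa [Ne, ZMod.intCast_zmod_eq_zero_iff_dvd]
    set j : ZMod q := ((g 1 1 : ℤ) : ZMod q) / ((g 1 0 : ℤ) : ZMod q) with hj
    refine ⟨some j, g * (D.rep (some j))⁻¹, ?_, by group⟩
    have hval : (((g * (D.rep (some j))⁻¹ : SL(2, ℤ))) 1 0 : ℤ) =
        q * g 1 0 - M * (g 1 1 - g 1 0 * j.val) := by
      rw [Matrix.SpecialLinearGroup.coe_mul, Matrix.SpecialLinearGroup.coe_inv,
        D.rep_some_val j, Matrix.adjugate_fin_two_of, Matrix.mul_apply, Fin.sum_univ_two]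
      simp
      ring
    rw [mem_Gamma0_iff_dvd, hval, D.dvd_N_iff]
    constructor
    · refine dvd_sub (dvd_mul_right _ _) (dvd_mul_of_dvd_right ?_ _)
      rw [← ZMod.intCast_zmod_eq_zero_iff_dvd]
      push_cast
      rw [ZMod.natCast_zmod_val, hj, mul_div_cancel₀ _ hc', sub_self]
    · exact dvd_sub (dvd_mul_of_dvd_right hg _) (dvd_mul_right _ _)

/-- uniqueness of representatives. -/
theorem rep_unique {x y : Option (ZMod q)} (h : D.rep x * (D.rep y)⁻¹ ∈ Gamma0 N) : x = y := by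
  have : Fact q.Prime := ⟨D.hq⟩
  have : NeZero q := ⟨D.hq.ne_zero⟩
  have hqM : ¬ (q : ℤ) ∣ M := by
    intro hdvd
    have h1 : (q : ℤ) ∣ 1 := by
      rw [← D.h]; exact dvd_sub (dvd_mul_right _ _) (dvd_mul_of_dvd_left hdvd _)
    have h2 : q ∣ 1 := by exact_mod_cast h1
    exact D.hq.one_lt.ne' (Nat.dvd_one.mp h2)
  have hqp : Prime (q : ℤ) := Nat.prime_iff_prime_int.mp D.hq
  rw [mem_Gamma0_iff_dvd] at h
  have hq1 := ((D.dvd_N_iff _).mp h).1
  cases x with
  | none =>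
    cases y with
    | none => rfl
    | some k =>
      exfalso
      rw [rep_none, one_mul, Matrix.SpecialLinearGroup.coe_inv, D.rep_some_val,
        Matrix.adjugate_fin_two_of] at hq1
      simp at hq1
      exact hqM hq1
  | some j =>
    cases y with
    | none =>
      exfalso
      rw [rep_none, inv_one, mul_one, D.rep_some_val] at hq1
      simp at hq1
      exact hqM hq1
    | some k =>
      have hval : (((D.rep (some j) * (D.rep (some k))⁻¹ : SL(2, ℤ))) 1 0 : ℤ) =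
          M * M * ((k.val : ℤ) - j.val) := by
        rw [Matrix.SpecialLinearGroup.coe_mul, Matrix.SpecialLinearGroup.coe_inv,
          D.rep_some_val j, D.rep_some_val k, Matrix.adjugate_fin_two_of, Matrix.mul_apply,
          Fin.sum_univ_two]
        simp
        ring
      rw [hval] at hq1
      rcases hqp.dvd_or_dvd hq1 with h1 | h1
      · rcases hqp.dvd_or_dvd h1 with h2 | h2 <;> exact absurd h2 hqM
      · congr 1
        have h2 := (ZMod.intCast_zmod_eq_zero_iff_dvd _ _).mpr h1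
        push_cast at h2
        rw [ZMod.natCast_zmod_val, ZMod.natCast_zmod_val, sub_eq_zero] at h2
        exact h2.symm

theorem sum_rep_slash (k : ℤ) (f : CuspForm (Gamma0 N) k) {γ : GL (Fin 2) ℝ}
    (hγ : γ ∈ (Gamma0 M : Subgroup (GL (Fin 2) ℝ))) [Fintype (Option (ZMod q))] :
    (∑ x : Option (ZMod q), (⇑f : UpperHalfPlane → ℂ) ∣[k] mapGL ℝ (D.rep x)) ∣[k] γ =
      ∑ x : Option (ZMod q), (⇑f : UpperHalfPlane → ℂ) ∣[k] mapGL ℝ (D.rep x) := by
  classical
  obtain ⟨g, hg, rfl⟩ := hγ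
  rw [SlashAction.sum_slash]
  choose σ c hc hσ using fun x : Option (ZMod q) =>
    D.exists_rep (D.rep x * g) (mul_mem (D.rep_mem x) hg)
  have hinj : Function.Injective σ := by
    intro x x' hxx'
    have h1 := hσ x
    have h2 := hσ x'
    rw [hxx'] at h1
    apply D.rep_unique
    have : D.rep x * (D.rep x')⁻¹ = c x * (c x')⁻¹ := by
      have h3 : D.rep x = c x * D.rep (σ x') * g⁻¹ := by rw [← h1]; group
      have h4 : D.rep x' = c x' * D.rep (σ x') * g⁻¹ := by rw [← h2]; group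
      rw [h3, h4]
      group
    rw [this]
    exact mul_mem (hc x) (inv_mem (hc x'))
  have hbij : Function.Bijective σ := Finite.injective_iff_bijective.mp hinj
  rw [← hbij.sum_comp (fun y => (⇑f : UpperHalfPlane → ℂ) ∣[k] mapGL ℝ (D.rep y))]
  refine Finset.sum_congr rfl fun x _ => ?_
  have hinv : (⇑f : UpperHalfPlane → ℂ) ∣[k] (mapGL ℝ (c x)) = ⇑f :=
    SlashInvariantFormClass.slash_action_eq f (mapGL ℝ (c x))
      (show mapGL ℝ (c x) ∈ (Gamma0 N : Subgroup (GL (Fin 2) ℝ)) from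
        Subgroup.mem_map_of_mem _ (hc x))
  have hmul : mapGL ℝ (D.rep x) * mapGL ℝ g = mapGL ℝ (c x) * mapGL ℝ (D.rep (σ x)) := by
    rw [← map_mul, hσ x, map_mul]
  rw [← SlashAction.slash_mul, hmul, SlashAction.slash_mul, hinv]

include D in
theorem dvdqN : q ∣ N := ⟨M, D.hN⟩

include D in
theorem dvdMN : M ∣ N := ⟨q, by rw [D.hN, mul_comm]⟩

include D in
theorem neZero_M [NeZero N] : NeZero M := ⟨fun h => NeZero.ne N (by rw [D.hN, h, mul_zero])⟩

variable [NeZero N]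

/-- The prime `q`. -/
abbrev qp : Nat.Primes := ⟨q, D.hq⟩

/-- `f + U_q w_q f`, as a cusp form of level `N`. -/
def trN : CuspForm (Gamma0 N) 2 →ₗ[ℂ] CuspForm (Gamma0 N) 2 :=
  LinearMap.id + (heckeOp N 2 D.qp) ∘ₗ D.w 2

theorem trN_apply (f : CuspForm (Gamma0 N) 2) : D.trN f = f + heckeOp N 2 D.qp (D.w 2 f) := rfl

theorem coe_trN [NeZero q] (f : CuspForm (Gamma0 N) 2) :
    (⇑(D.trN f) : UpperHalfPlane → ℂ) =
      ∑ x : Option (ZMod q), (⇑f : UpperHalfPlane → ℂ) ∣[(2 : ℤ)] mapGL ℝ (D.rep x) := by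
  classical
  rw [Fintype.sum_option, rep_none, map_one, SlashAction.slash_one, trN_apply]
  show (⇑f : UpperHalfPlane → ℂ) + ⇑(heckeOp N 2 D.qp (D.w 2 f)) = _
  congr 1
  rw [heckeOp_of_dvd (p := D.qp) D.dvdqN, CuspForm.coe_heckeULin_apply, coe_w,
    ModularForm.heckeU_def]
  refine (Finset.sum_bij' (fun (j : ZMod q) _ => j.val) (fun i _ => (i : ZMod q))
    ?_ ?_ ?_ ?_ ?_).symm
  · intro j _
    exact Finset.mem_range.mpr (ZMod.val_lt j)
  · intro i _
    exact Finset.mem_univ _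
  · intro j _
    exact ZMod.natCast_zmod_val j
  · intro i hi
    exact ZMod.val_natCast_of_lt (Finset.mem_range.mp hi)
  · intro j _
    have hN := D.hNZ
    have h1 : D.W * ModularForm.heckeMatrix q j.val =
        scal q D.hq.ne_zero * mapGL ℝ (D.rep (some j)) := by
      refine GL_eq_of_int (b := !![1, (j.val : ℤ); 0, (q : ℤ)]) D.val_W ?_ (val_scal _)
        (val_mapGL _) ?_
      · rw [ModularForm.val_heckeMatrix D.hq.ne_zero]
        ext i k
        fin_cases i <;> fin_cases k <;> simp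
      · rw [D.rep_some_val]
        ext i k
        fin_cases i <;> fin_cases k <;>
          simp [intW, Matrix.mul_apply, Fin.sum_univ_two, -ZMod.natCast_val] <;> try rw [hN]
        · ring
        · ring
    rw [← SlashAction.slash_mul, h1, SlashAction.slash_mul, slash_scal]

theorem trN_slash (f : CuspForm (Gamma0 N) 2) {γ : GL (Fin 2) ℝ}
    (hγ : γ ∈ (Gamma0 M : Subgroup (GL (Fin 2) ℝ))) :
    (⇑(D.trN f) : UpperHalfPlane → ℂ) ∣[(2 : ℤ)] γ = ⇑(D.trN f) := by
  classical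
  have : NeZero q := ⟨D.hq.ne_zero⟩
  rw [D.coe_trN f]
  exact D.sum_rep_slash 2 f hγ

/-- The trace `S_2(Γ₀(N)) → S_2(Γ₀(M))`, `N = q M`. -/
def tr : CuspForm (Gamma0 N) 2 →ₗ[ℂ] CuspForm (Gamma0 M) 2 :=
  haveI : NeZero M := D.neZero_M
  { toFun := fun f => ofInvariant M (D.trN f) fun _ hγ => D.trN_slash f hγ
    map_add' := fun f g => DFunLike.coe_injective (by
      show (⇑(D.trN (f + g)) : UpperHalfPlane → ℂ) = ⇑(D.trN f) + ⇑(D.trN g)
      rw [map_add]
      rfl)
    map_smul' := fun c f => DFunLike.coe_injective (by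
      show (⇑(D.trN (c • f)) : UpperHalfPlane → ℂ) = c • ⇑(D.trN f)
      rw [map_smul]
      rfl) }

theorem restr_tr (f : CuspForm (Gamma0 N) 2) : restr N D.dvdMN 2 (D.tr f) = D.trN f :=
  DFunLike.coe_injective rfl

/-- The trace commutes with the Hecke operators at primes `p ≠ q`. -/
theorem tr_heckeOp [NeZero M] (p : Nat.Primes) (hpq : (p : ℕ) ≠ q) (f : CuspForm (Gamma0 N) 2) :
    D.tr (heckeOp N 2 p f) = heckeOp M 2 p (D.tr f) := by
  apply restr_injective D.dvdMN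
  have hcond : (p : ℕ) ∣ N → (p : ℕ) ∣ M := by
    intro h
    rw [D.hN] at h
    rcases p.2.dvd_mul.mp h with h1 | h1
    · exact absurd ((Nat.prime_dvd_prime_iff_eq p.2 D.hq).mp h1) hpq
    · exact h1
  rw [restr_tr, ← heckeOp_restr D.dvdMN p hcond, restr_tr, trN_apply, trN_apply, map_add,
    D.w_heckeOp 2 p hpq f]
  have := congrArg (fun A : Module.End ℂ (CuspForm (Gamma0 N) 2) => A (D.w 2 f))
    (heckeOp_comm (N := N) (k := 2) D.qp p).eq
  simp only [Module.End.mul_apply] at this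
  rw [this]

include D in
/-- **Lowering the level**: a normalised eigenform of level `N = qM` (`q ∤ M`) with `a_q² ≠ 1`
comes from level `M`. -/
theorem exists_eigenform_lower [NeZero M] (f : CuspForm (Gamma0 N) 2)
    (hf : f.IsNormalizedEigenform) (hq : qCoeff ⇑f q ^ 2 ≠ 1) :
    ∃ g : CuspForm (Gamma0 M) 2, g.IsNormalizedEigenform ∧
      ∀ p : ℕ, p.Prime → p ≠ q → qCoeff ⇑g p = qCoeff ⇑f p := by
  -- a helper: if `F` is a form with the same eigenvalues away from `q` and nonzero trace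
  have key : ∀ F : CuspForm (Gamma0 N) 2, (∀ p : Nat.Primes, (p : ℕ) ≠ q →
      heckeOp N 2 p F = qCoeff ⇑f p • F) → D.tr F ≠ 0 →
      ∃ g : CuspForm (Gamma0 M) 2, g.IsNormalizedEigenform ∧
        ∀ p : ℕ, p.Prime → p ≠ q → qCoeff ⇑g p = qCoeff ⇑f p := by
    intro F hF hF0
    obtain ⟨g, hg, hg2⟩ := exists_eigenform_of_joint (N := M) {p : Nat.Primes | (p : ℕ) ≠ q}
      (fun p => qCoeff ⇑f p) (D.tr F) hF0 (fun p hp => by
        rw [← D.tr_heckeOp p hp, hF p hp, map_smul])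
    exact ⟨g, hg, fun p hp hpq => hg2 ⟨p, hp⟩ hpq⟩
  by_cases h1 : D.tr f ≠ 0
  · exact key f (fun p _ => heckeOp_eq_of_isNormalizedEigenform hf p) h1
  by_cases h2 : D.tr (D.w 2 f) ≠ 0
  · refine key (D.w 2 f) (fun p hp => ?_) h2
    rw [← D.w_heckeOp 2 p hp, heckeOp_eq_of_isNormalizedEigenform hf p, map_smul]
  · exfalso
    push Not at h1 h2
    have e1 : D.trN f = 0 := by rw [← restr_tr, h1, map_zero]
    have e2 : D.trN (D.w 2 f) = 0 := by rw [← restr_tr, h2, map_zero]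
    rw [trN_apply] at e1 e2
    rw [w_w] at e2
    have hU := heckeOp_eq_of_isNormalizedEigenform hf D.qp
    rw [hU] at e2
    -- `w f = - a_q f`, so `f = - U_q w f = a_q² f`
    have hw : D.w 2 f = -(qCoeff ⇑f q • f) := eq_neg_of_add_eq_zero_left e2
    rw [hw, map_neg, map_smul, hU, smul_smul] at e1
    have h3 : (1 - qCoeff ⇑f q * qCoeff ⇑f q) • f = 0 := by
      rw [sub_smul, one_smul, sub_eq_add_neg]
      exact e1
    rcases smul_eq_zero.mp h3 with h4 | h4
    · exact hq (by rw [pow_two]; exact (sub_eq_zero.mp h4).symm)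
    · exact hf.ne_zero h4

end ALData

end Fermat.Agent.Oldforms

end
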