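import Fermat.Agent.Oldforms.Newform

/-!
# The operator `V_q : f(τ) ↦ f(qτ)` and `q`-stabilisation
-/

set_option autoImplicit false

noncomputable section

open CongruenceSubgroup ModularFormClass FermatAgent.HeckeEigen Matrix.SpecialLinearGroup
open Fermat.Agent.HeckePar
open scoped MatrixGroups ModularForm

namespace Fermat.Agent.Oldforms

variable {N M q : ℕ}

theorem exists_diag_mul (hq : q ≠ 0) (hN : N = q * M) (g : SL(2, ℤ)) (hg : g ∈ Gamma0 N) :
    ∃ g' ∈ Gamma0 M, ModularForm.heckeDiagMatrix q * mapGL ℝ g =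
      mapGL ℝ g' * ModularForm.heckeDiagMatrix q := by
  have hqz : (q : ℤ) ≠ 0 := by exact_mod_cast hq
  obtain ⟨c, hc⟩ : (N : ℤ) ∣ g 1 0 :=
    (ZMod.intCast_zmod_eq_zero_iff_dvd _ _).mp (Gamma0_mem.mp hg)
  have hd := det_SL g
  have hNz : (N : ℤ) = q * M := by rw [hN]; push_cast; rfl
  set a := g 0 0 with ha
  set b := g 0 1 with hb
  set d := g 1 1 with hd'
  rw [hc] at hd
  have hgm : (g : Matrix (Fin 2) (Fin 2) ℤ) = !![a, b; (N : ℤ) * c, d] := by
    ext i j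
    fin_cases i <;> fin_cases j <;> simp [ha, hb, hc, hd']
  refine ⟨⟨!![a, q * b; (M : ℤ) * c, d], ?_⟩, ?_, ?_⟩
  · rw [Matrix.det_fin_two_of]
    rw [hNz] at hd
    linear_combination hd
  · exact Gamma0_mem.mpr ((ZMod.intCast_zmod_eq_zero_iff_dvd _ _).mpr ⟨c, rfl⟩)
  · refine ALData.GL_eq_of_int (val_hrep hq none) (val_mapGL g) (val_mapGL _) (val_hrep hq none) ?_
    rw [hgm]
    ext i j
    fin_cases i <;> fin_cases j <;>
      simp [Matrix.mul_apply, Fin.sum_univ_two] <;> try rw [hNz]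
    · ring
    · ring

open ConjAct Pointwise in
theorem Gamma0_le_conj_diag (hq : q ≠ 0) (hN : N = q * M) :
    (Gamma0 N : Subgroup (GL (Fin 2) ℝ)) ≤
      toConjAct (ModularForm.heckeDiagMatrix q)⁻¹ • (Gamma0 M : Subgroup (GL (Fin 2) ℝ)) := by
  rintro γ ⟨g, hg, rfl⟩
  rw [Subgroup.mem_pointwise_smul_iff_inv_smul_mem, ← map_inv, ConjAct.toConjAct_smul, inv_inv]
  obtain ⟨g', hg', h⟩ := exists_diag_mul hq hN g hg
  have : ModularForm.heckeDiagMatrix q * mapGL ℝ g * (ModularForm.heckeDiagMatrix q)⁻¹ =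
      mapGL ℝ g' := by
    rw [h]; group
  show ModularForm.heckeDiagMatrix q * mapGL ℝ g * (ModularForm.heckeDiagMatrix q)⁻¹ ∈ _
  rw [this]
  exact Subgroup.mem_map_of_mem _ hg'

/-- The unnormalised `V_q` operator, `f ↦ f ∣[k] diag(q,1)`. -/
def Vraw (k : ℤ) (hq : q ≠ 0) (hN : N = q * M) :
    CuspForm (Gamma0 M) k →ₗ[ℂ] CuspForm (Gamma0 N) k where
  toFun f :=
    { toFun := (⇑f : UpperHalfPlane → ℂ) ∣[k] ModularForm.heckeDiagMatrix q
      slash_action_eq' := fun γ hγ => by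
        obtain ⟨g, hg, rfl⟩ := hγ
        obtain ⟨g', hg', h⟩ := exists_diag_mul hq hN g hg
        have hinv : (⇑f : UpperHalfPlane → ℂ) ∣[k] (mapGL ℝ g') = ⇑f :=
          SlashInvariantFormClass.slash_action_eq f (mapGL ℝ g')
            (show mapGL ℝ g' ∈ (Gamma0 M : Subgroup (GL (Fin 2) ℝ)) from
              Subgroup.mem_map_of_mem _ hg')
        have h' : ModularForm.heckeDiagMatrix q * (mapGL ℝ g) =
          mapGL ℝ g' * ModularForm.heckeDiagMatrix q := h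
        rw [← SlashAction.slash_mul]
        erw [h']
        rw [SlashAction.slash_mul, hinv]
      holo' := (CuspFormClass.holo f).slash k _
      zero_at_cusps' := fun {c} hc =>
        (CuspForm.translate f (ModularForm.heckeDiagMatrix q)).zero_at_cusps'
          (hc.mono (Gamma0_le_conj_diag hq hN)) }
  map_add' f g := DFunLike.coe_injective (SlashAction.add_slash k (ModularForm.heckeDiagMatrix q) ⇑f ⇑g)
  map_smul' c f := DFunLike.coe_injective (by
    show (c • (⇑f : UpperHalfPlane → ℂ)) ∣[k] ModularForm.heckeDiagMatrix q =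
      c • ((⇑f : UpperHalfPlane → ℂ) ∣[k] ModularForm.heckeDiagMatrix q)
    rw [ModularForm.smul_slash, ModularForm.σ_heckeDiagMatrix]
    rfl)

@[simp] theorem coe_Vraw (k : ℤ) (hq : q ≠ 0) (hN : N = q * M) (f : CuspForm (Gamma0 M) k) :
    (⇑(Vraw k hq hN f) : UpperHalfPlane → ℂ) =
      (⇑f : UpperHalfPlane → ℂ) ∣[k] ModularForm.heckeDiagMatrix q := rfl

theorem qCoeff_Vraw [NeZero N] (k : ℤ) (hq : q ≠ 0) (hN : N = q * M) (f : CuspForm (Gamma0 M) k)
    (n : ℕ) : qCoeff ⇑(Vraw k hq hN f) n =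
      if q ∣ n then (q : ℂ) ^ (k - 1) * qCoeff ⇑f (n / q) else 0 := by
  have hMN : M ∣ N := ⟨q, by rw [hN, mul_comm]⟩
  have hqN : q ∣ N := ⟨M, hN⟩
  have h1 := ModularFormClass.qCoeff_heckeT f (hperiod M) (p := q) hq n
  have h2 : (⇑(CuspForm.heckeULin k hqN (restr N hMN k f) + Vraw k hq hN f) :
      UpperHalfPlane → ℂ) = ModularForm.heckeT k q ⇑f := by
    rw [ModularForm.heckeT_eq_heckeU_add]
    rfl
  have h3 := qCoeff_add (CuspForm.heckeULin k hqN (restr N hMN k f)) (Vraw k hq hN f) n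
  rw [h2, h1, CuspForm.coe_heckeULin_apply, coe_restr,
    ModularFormClass.qCoeff_heckeU f (hperiod M) hq, ModularForm.coeffHeckeT_eq_coeffHeckeU_add] at h3
  exact (add_left_cancel h3).symm

/-- `V_q f (τ) = f(qτ)` -/
def V (k : ℤ) (hq : q ≠ 0) (hN : N = q * M) : CuspForm (Gamma0 M) k →ₗ[ℂ] CuspForm (Gamma0 N) k :=
  ((q : ℂ) ^ (k - 1))⁻¹ • Vraw k hq hN

theorem qCoeff_V [NeZero N] (k : ℤ) (hq : q ≠ 0) (hN : N = q * M) (f : CuspForm (Gamma0 M) k)
    (n : ℕ) : qCoeff ⇑(V k hq hN f) n = if q ∣ n then qCoeff ⇑f (n / q) else 0 := by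
  have hq' : (q : ℂ) ≠ 0 := by exact_mod_cast hq
  rw [V, LinearMap.smul_apply, qCoeff_smul, qCoeff_Vraw]
  split_ifs
  · rw [inv_mul_cancel_left₀ (zpow_ne_zero _ hq')]
  · rw [mul_zero]

theorem V_apply (k : ℤ) (hq : q ≠ 0) (hN : N = q * M) (f : CuspForm (Gamma0 M) k)
    (τ : UpperHalfPlane) :
    V k hq hN f τ = f (ModularForm.heckeDiagMatrix q • τ) := by
  have hq' : (q : ℂ) ≠ 0 := by exact_mod_cast hq
  show ((q : ℂ) ^ (k - 1))⁻¹ * ((⇑f : UpperHalfPlane → ℂ) ∣[k] ModularForm.heckeDiagMatrix q) τ = _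
  rw [ModularForm.slash_heckeDiagMatrix_apply k hq, inv_mul_cancel_left₀ (zpow_ne_zero _ hq')]

/-- `V_q` commutes with the Hecke operators at `p ≠ q`. -/
theorem heckeOp_V [NeZero N] [NeZero M] (k : ℤ) (hq : q.Prime) (hN : N = q * M) (p : Nat.Primes)
    (hpq : (p : ℕ) ≠ q) (f : CuspForm (Gamma0 M) k) :
    heckeOp N k p (V k hq.ne_zero hN f) = V k hq.ne_zero hN (heckeOp M k p f) := by
  apply eq_of_qCoeff_eq
  intro n
  have hpN : (p : ℕ) ∣ N ↔ (p : ℕ) ∣ M := by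
    rw [hN]
    constructor
    · intro h
      rcases p.2.dvd_mul.mp h with h1 | h1
      · exact absurd ((Nat.prime_dvd_prime_iff_eq p.2 hq).mp h1) hpq
      · exact h1
    · intro h; exact h.mul_left _
  have hcop : Nat.Coprime q p := (Nat.coprime_primes hq p.2).mpr (Ne.symm hpq)
  have hqpn : q ∣ p * n ↔ q ∣ n := hcop.dvd_mul_left
  rw [qCoeff_heckeOp, qCoeff_V, qCoeff_V, qCoeff_V, qCoeff_heckeOp]
  by_cases hqn : q ∣ n
  · obtain ⟨m, rfl⟩ := hqn
    have e1 : (p : ℕ) * (q * m) / q = p * m := by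
      rw [Nat.mul_left_comm, Nat.mul_div_cancel_left _ hq.pos]
    rw [if_pos (dvd_mul_right q m), if_pos (hqpn.mpr (dvd_mul_right q m)), e1,
      Nat.mul_div_cancel_left _ hq.pos]
    by_cases hpM : (p : ℕ) ∣ M
    · rw [if_pos hpM, if_pos (hpN.mpr hpM)]
    · rw [if_neg hpM, if_neg (fun h => hpM (hpN.mp h))]
      have hpqm : (p : ℕ) ∣ q * m ↔ (p : ℕ) ∣ m := hcop.symm.dvd_mul_left
      by_cases hpm : (p : ℕ) ∣ m
      · obtain ⟨r, rfl⟩ := hpm
        have e2 : q * ((p : ℕ) * r) / p = q * r := by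
          rw [Nat.mul_left_comm, Nat.mul_div_cancel_left _ p.2.pos]
        rw [if_pos (hpqm.mpr (dvd_mul_right _ _)), if_pos (dvd_mul_right _ _), e2,
          if_pos (dvd_mul_right q r), Nat.mul_div_cancel_left _ hq.pos,
          Nat.mul_div_cancel_left _ p.2.pos]
      · rw [if_neg (fun h => hpm (hpqm.mp h)), if_neg hpm]
  · rw [if_neg hqn, if_neg (fun h => hqn (hqpn.mp h)), zero_add]
    by_cases hpM : (p : ℕ) ∣ N
    · rw [if_pos hpM]
    · rw [if_neg hpM]
      split_ifs with h1 h2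
      · exact absurd (h2.trans (Nat.div_dvd_of_dvd h1)) hqn
      · rw [mul_zero]
      · rfl

/-- `U_q V_q = 1`. -/
theorem heckeOp_V_self [NeZero N] (k : ℤ) (q : Nat.Primes) (hN : N = q * M)
    (hMN : M ∣ N) (f : CuspForm (Gamma0 M) k) :
    heckeOp N k q (V k q.2.ne_zero hN f) = restr N hMN k f := by
  apply eq_of_qCoeff_eq
  intro n
  have hqN : (q : ℕ) ∣ N := ⟨M, hN⟩
  rw [qCoeff_heckeOp, if_pos hqN, add_zero, qCoeff_V,
    if_pos (dvd_mul_right _ _), Nat.mul_div_cancel_left _ q.2.pos, coe_restr]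

/-- **`q`-stabilisation**: for `q ∤ M` and a root `x` of `X² - a_q X + q`, a normalised eigenform of
level `M` gives a normalised eigenform of level `qM` with the same `a_p`, `p ≠ q`, and with
`U_q`-eigenvalue `x`. -/
theorem exists_stabilisation [NeZero N] (q : Nat.Primes) (hN : N = q * M) (hqM : ¬ (q : ℕ) ∣ M)
    (f : CuspForm (Gamma0 M) 2) (hf : f.IsNormalizedEigenform) (x : ℂ)
    (hx : x ^ 2 - qCoeff ⇑f q * x + q = 0) :
    ∃ g : CuspForm (Gamma0 N) 2, g.IsNormalizedEigenform ∧ qCoeff ⇑g q = x ∧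
      ∀ p : ℕ, p.Prime → p ≠ q → qCoeff ⇑g p = qCoeff ⇑f p := by
  have hM : NeZero M := ⟨fun h => NeZero.ne N (by rw [hN, h, mul_zero])⟩
  have hMN : M ∣ N := ⟨q, by rw [hN, mul_comm]⟩
  have hq0 : (q : ℕ) ≠ 0 := q.2.ne_zero
  set y : ℂ := qCoeff ⇑f q - x with hy
  have hxy : x * y = q := by rw [hy]; linear_combination -hx
  set g : CuspForm (Gamma0 N) 2 := restr N hMN 2 f - y • V 2 hq0 hN f with hg
  have hgn : ∀ n, qCoeff ⇑g n = qCoeff ⇑f n - y * (if (q : ℕ) ∣ n then qCoeff ⇑f (n / q) else 0) := by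
    intro n
    rw [hg, qCoeff_sub, qCoeff_smul, qCoeff_V, coe_restr]
  have hg1 : qCoeff ⇑g 1 = 1 := by
    rw [hgn, if_neg q.2.not_dvd_one, mul_zero, sub_zero, hf.qCoeff_one]
  classical
  set χ : Nat.Primes → ℂ := fun p => if (p : ℕ) = q then x else qCoeff ⇑f p with hχ
  have hUf : heckeOp N 2 q (restr N hMN 2 f) = qCoeff ⇑f q • restr N hMN 2 f -
      (q : ℂ) • V 2 hq0 hN f := by
    apply eq_of_qCoeff_eq
    intro n
    have h1 := congrArg (fun F : CuspForm (Gamma0 M) 2 => qCoeff ⇑F n)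
      (heckeOp_eq_of_isNormalizedEigenform hf q)
    simp only [qCoeff_heckeOp_two, qCoeff_smul, if_neg hqM] at h1
    have hqN : (q : ℕ) ∣ N := ⟨M, hN⟩
    rw [qCoeff_heckeOp, if_pos hqN, qCoeff_sub, qCoeff_smul, qCoeff_smul,
      qCoeff_V, coe_restr]
    linear_combination h1
  have hev : ∀ p, heckeOp N 2 p g = χ p • g := by
    intro p
    by_cases hpq : (p : ℕ) = q
    · obtain rfl : p = q := Subtype.ext hpq
      rw [hχ]
      simp only [if_true]
      rw [hg, map_sub, map_smul, hUf, heckeOp_V_self 2 p hN hMN f, smul_sub, smul_smul, hxy]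
      rw [show (x • restr N hMN 2 f : CuspForm (Gamma0 N) 2) =
        (qCoeff ⇑f p) • restr N hMN 2 f - y • restr N hMN 2 f by
          rw [← sub_smul, hy]; congr 1; ring]
      abel
    · rw [hχ]
      simp only [if_neg hpq]
      have hcond : (p : ℕ) ∣ N → (p : ℕ) ∣ M := by
        intro h
        rw [hN] at h
        rcases p.2.dvd_mul.mp h with h1 | h1
        · exact absurd ((Nat.prime_dvd_prime_iff_eq p.2 q.2).mp h1) hpq
        · exact h1
      rw [hg, map_sub, map_smul, heckeOp_restr hMN p hcond, heckeOp_V 2 q.2 hN p hpq,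
        heckeOp_eq_of_isNormalizedEigenform hf p, map_smul, map_smul, smul_sub, smul_comm y]
  refine ⟨g, isNormalizedEigenform_of_eigen hev hg1, ?_, ?_⟩
  · rw [hgn, if_pos dvd_rfl, Nat.div_self q.2.pos, hf.qCoeff_one, hy]
    ring
  · intro p hp hpq
    have : ¬ (q : ℕ) ∣ p := fun h => hpq ((Nat.prime_dvd_prime_iff_eq q.2 hp).mp h).symm
    rw [hgn, if_neg this, mul_zero, sub_zero]

end Fermat.Agent.Oldforms

end
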