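import Fermat.Agent.Oldforms.Trace

/-!
# Coefficients of newforms at bad primes

`NewformBadPrimeCoeff N` : for a newform of level `N`, `a_q² = 1` if `q ‖ N` and `a_q = 0` if
`q² ∣ N`.
-/

set_option autoImplicit false

noncomputable section

open CongruenceSubgroup ModularFormClass FermatAgent.HeckeEigen Matrix.SpecialLinearGroup
open Fermat.Agent.HeckePar
open scoped MatrixGroups ModularForm

namespace Fermat.Agent.Oldforms

variable {N M q : ℕ}

/-- For `q² ∣ N = q M`, the Hecke cosets at `q` are permuted by `Γ₀(M)`. -/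
theorem exists_hecke_lower (hq : q.Prime) (hN : N = q * M) (hqM : q ∣ M) (g : SL(2, ℤ))
    (hg : g ∈ Gamma0 M) (x : HIdx N q) :
    ∃ (y : HIdx N q), ∃ g' ∈ Gamma0 N, hrep q x.1 * mapGL ℝ g = mapGL ℝ g' * hrep q y.1 := by
  have hgM : (M : ℤ) ∣ g 1 0 := (ZMod.intCast_zmod_eq_zero_iff_dvd _ _).mp (Gamma0_mem.mp hg)
  have hqc : (q : ℤ) ∣ g 1 0 := (Int.natCast_dvd_natCast.mpr hqM).trans hgM
  have hqN : q ∣ N := ⟨M, hN⟩
  have hd := det_SL g
  obtain ⟨x, hx⟩ := x
  obtain ⟨j, rfl⟩ : ∃ j, x = some j := by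
    rcases x with _ | j
    · exact absurd rfl (hx hqN)
    · exact ⟨j, rfl⟩
  have hdet : (intRep q (some j) * (g : Matrix (Fin 2) (Fin 2) ℤ)).det = q := by
    rw [Matrix.det_mul, det_intRep, Matrix.SpecialLinearGroup.det_coe, mul_one]
  obtain ⟨y, B', hB', hB'det, hB'N, -⟩ := exists_factor (N := N) hq
    (intRep q (some j) * (g : Matrix (Fin 2) (Fin 2) ℤ)) 1
    (by rw [← Matrix.det_fin_two, hdet, mul_one])
    (by
      rw [Matrix.mul_apply, Fin.sum_univ_two]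
      simp only [intRep_some, Matrix.of_apply, Matrix.cons_val', Matrix.cons_val_zero,
        Matrix.cons_val_one, Matrix.cons_val_fin_one, zero_mul, zero_add]
      rw [hN]
      push_cast
      exact mul_dvd_mul_left _ hgM)
    (by
      intro _ hdvd
      rw [Matrix.mul_apply, Fin.sum_univ_two] at hdvd
      simp only [intRep_some, Matrix.of_apply, Matrix.cons_val', Matrix.cons_val_zero,
        Matrix.cons_val_one, Matrix.cons_val_fin_one, one_mul] at hdvd
      have h1 : (q : ℤ) ∣ g 0 0 := (dvd_add_left (dvd_mul_of_dvd_right hqc _)).mp hdvd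
      have h2 : (q : ℤ) ∣ 1 := by
        rw [← hd]
        exact dvd_sub (dvd_mul_of_dvd_left h1 _) (dvd_mul_of_dvd_right hqc _)
      have h3 : q ∣ 1 := by exact_mod_cast h2
      exact hq.one_lt.ne' (Nat.dvd_one.mp h3))
  refine ⟨y, ⟨B', by rw [Matrix.det_fin_two]; exact hB'det⟩,
    Gamma0_mem.mpr ((ZMod.intCast_zmod_eq_zero_iff_dvd _ _).mpr hB'N), ?_⟩
  exact ALData.GL_eq_of_int (val_hrep hq.ne_zero _) (val_mapGL _) (val_mapGL _)
    (val_hrep hq.ne_zero _) hB'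

theorem heckeOp_slash_lower [NeZero N] (k : ℤ) (p : Nat.Primes) (hN : N = p * M)
    (hqM : (p : ℕ) ∣ M) (f : CuspForm (Gamma0 N) k) {γ : GL (Fin 2) ℝ}
    (hγ : γ ∈ (Gamma0 M : Subgroup (GL (Fin 2) ℝ))) :
    (⇑(heckeOp N k p f) : UpperHalfPlane → ℂ) ∣[k] γ = ⇑(heckeOp N k p f) := by
  classical
  obtain ⟨g, hg, rfl⟩ := hγ
  rw [ALData.coe_heckeOp_eq_sum, SlashAction.sum_slash]
  have : Fact (p : ℕ).Prime := ⟨p.2⟩
  choose σ c hc hσ using fun x : HIdx N p => exists_hecke_lower p.2 hN hqM g hg x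
  have hinj : Function.Injective σ := by
    intro x x' hxx'
    have h1 := hσ x
    have h2 := hσ x'
    rw [hxx'] at h1
    apply Subtype.ext
    apply ALData.hrep_unique p.2 (g := c x * (c x')⁻¹)
    apply mul_right_cancel (b := mapGL ℝ g)
    rw [h1, mul_assoc, h2, map_mul, map_inv]
    group
  have hbij : Function.Bijective σ := Finite.injective_iff_bijective.mp hinj
  rw [← hbij.sum_comp (fun y : HIdx N p => (⇑f : UpperHalfPlane → ℂ) ∣[k] hrep p y.1)]
  refine Finset.sum_congr rfl fun x _ => ?_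
  have hinv : (⇑f : UpperHalfPlane → ℂ) ∣[k] (mapGL ℝ (c x)) = ⇑f :=
    SlashInvariantFormClass.slash_action_eq f (mapGL ℝ (c x))
      (show mapGL ℝ (c x) ∈ (Gamma0 N : Subgroup (GL (Fin 2) ℝ)) from
        Subgroup.mem_map_of_mem _ (hc x))
  rw [← SlashAction.slash_mul]
  have h2 : hrep p x.1 * mapGL ℝ g = mapGL ℝ (c x) * hrep p (σ x).1 := hσ x
  erw [h2]
  rw [SlashAction.slash_mul, hinv]

/-- `U_q : S_k(Γ₀(N)) → S_k(Γ₀(N/q))` if `q² ∣ N`. -/
def lowerU [NeZero N] (k : ℤ) (p : Nat.Primes) (hN : N = p * M) (hqM : (p : ℕ) ∣ M) :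
    CuspForm (Gamma0 N) k →ₗ[ℂ] CuspForm (Gamma0 M) k :=
  haveI : NeZero M := ⟨fun h => NeZero.ne N (by rw [hN, h, mul_zero])⟩
  { toFun := fun f => ofInvariant M (heckeOp N k p f)
      fun _ hγ => heckeOp_slash_lower k p hN hqM f hγ
    map_add' := fun f g => DFunLike.coe_injective (by
      show (⇑(heckeOp N k p (f + g)) : UpperHalfPlane → ℂ) = ⇑(heckeOp N k p f) + ⇑(heckeOp N k p g)
      rw [map_add]
      rfl)
    map_smul' := fun c f => DFunLike.coe_injective (by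
      show (⇑(heckeOp N k p (c • f)) : UpperHalfPlane → ℂ) = c • ⇑(heckeOp N k p f)
      rw [map_smul]
      rfl) }

theorem restr_lowerU [NeZero N] (k : ℤ) (p : Nat.Primes) (hN : N = p * M) (hqM : (p : ℕ) ∣ M)
    (f : CuspForm (Gamma0 N) k) :
    restr N ⟨p, by rw [hN, mul_comm]⟩ k (lowerU k p hN hqM f) = heckeOp N k p f :=
  DFunLike.coe_injective rfl

/-- A normalised eigenform of level `N = qM`, `q ∣ M`, with `a_q ≠ 0` comes from a
normalised eigenform of level `M`. -/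
theorem exists_eigenform_lower_sq [NeZero N] (p : Nat.Primes) (hN : N = p * M)
    (hqM : (p : ℕ) ∣ M) (f : CuspForm (Gamma0 N) 2) (hf : f.IsNormalizedEigenform)
    (hp : qCoeff ⇑f p ≠ 0) :
    ∃ g : CuspForm (Gamma0 M) 2, g.IsNormalizedEigenform ∧ ∀ n : ℕ, qCoeff ⇑g n = qCoeff ⇑f n := by
  have hM : NeZero M := ⟨fun h => NeZero.ne N (by rw [hN, h, mul_zero])⟩
  have hMN : M ∣ N := ⟨p, by rw [hN, mul_comm]⟩
  set g : CuspForm (Gamma0 M) 2 := (qCoeff ⇑f p)⁻¹ • lowerU 2 p hN hqM f with hg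
  have hgf : restr N hMN 2 g = f := by
    rw [hg, map_smul, restr_lowerU, heckeOp_eq_of_isNormalizedEigenform hf p, smul_smul,
      inv_mul_cancel₀ hp, one_smul]
  have hcoe : (⇑g : UpperHalfPlane → ℂ) = ⇑f := by
    rw [← hgf]; rfl
  have hdvd : ∀ r : ℕ, r.Prime → (r ∣ N ↔ r ∣ M) := by
    intro r hr
    rw [hN]
    constructor
    · intro h
      rcases hr.dvd_mul.mp h with h1 | h1
      · rw [(Nat.prime_dvd_prime_iff_eq hr p.2).mp h1]
        exact hqM
      · exact h1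
    · intro h
      exact h.mul_left _
  refine ⟨g, ⟨?_, ?_, ?_, ?_⟩, fun n => by rw [hcoe]⟩
  · rw [hcoe]; exact hf.qCoeff_one
  · intro m n hmn; rw [hcoe]; exact hf.qCoeff_mul_of_coprime m n hmn
  · intro r s hr hrM; rw [hcoe]
    exact hf.qCoeff_prime_pow_of_not_dvd r s hr (fun h => hrM ((hdvd r hr).mp h))
  · intro r s hr hrM; rw [hcoe]
    exact hf.qCoeff_prime_pow_of_dvd r s hr ((hdvd r hr).mpr hrM)

/-- The prelude's `NewformBadPrimeCoeff`, for all levels. -/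
theorem newformBadPrimeCoeff (N : ℕ) [NeZero N] : CuspForm.NewformBadPrimeCoeff N := by
  intro f hf q hq hqN
  obtain ⟨M, hM⟩ := hqN
  have hMN : M ∣ N := ⟨q, by rw [hM, mul_comm]⟩
  have hne : M ≠ N := by
    intro h
    have hN0 : 0 < N := Nat.pos_of_ne_zero (NeZero.ne N)
    have : N = q * N := by rw [← h, ← hM, h]
    nlinarith [hq.two_le]
  have hM0 : NeZero M := ⟨fun h => NeZero.ne N (by rw [hM, h, mul_zero])⟩
  constructor
  · intro hq2
    by_contra hcon
    have hqM : ¬ q ∣ M := by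
      intro h
      apply hq2
      rw [hM, pow_two]
      exact Nat.mul_dvd_mul_left q h
    obtain ⟨D⟩ := exists_ALData hq hM hqM
    obtain ⟨g, hg, hgf⟩ := D.exists_eigenform_lower f hf.1 hcon
    refine hf.2 M hMN hne ⟨g, hg, fun ℓ hℓ hℓN => hgf ℓ hℓ ?_⟩
    rintro rfl
    exact hℓN ⟨M, hM⟩
  · intro hq2
    by_contra hcon
    have hqM : q ∣ M := by
      rw [hM, pow_two] at hq2
      exact Nat.dvd_of_mul_dvd_mul_left hq.pos hq2
    obtain ⟨g, hg, hgf⟩ := exists_eigenform_lower_sq ⟨q, hq⟩ hM hqM f hf.1 hcon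
    exact hf.2 M hMN hne ⟨g, hg, fun ℓ _ _ => hgf ℓ⟩

end Fermat.Agent.Oldforms

end
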