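import Fermat.Agent.Oldforms.Basic

/-!
# The Atkin-Lehner operator `w_q` for `q ‖ N` and its commutation with Hecke operators
-/

set_option autoImplicit false

noncomputable section

open CongruenceSubgroup ModularFormClass FermatAgent.HeckeEigen Matrix.SpecialLinearGroup
open Fermat.Agent.HeckePar
open scoped MatrixGroups ModularForm

namespace Fermat.Agent.Oldforms

/-- Data for the Atkin-Lehner operator at the prime `q ‖ N = q M`. -/
structure ALData (N M q : ℕ) where
  hq : q.Prime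
  hN : N = q * M
  x : ℤ
  y : ℤ
  h : (q : ℤ) * x - M * y = 1

theorem exists_ALData {N M q : ℕ} (hq : q.Prime) (hN : N = q * M) (hqM : ¬ q ∣ M) :
    Nonempty (ALData N M q) := by
  have hcop : IsCoprime (q : ℤ) (M : ℤ) :=
    Nat.isCoprime_iff_coprime.mpr ((Nat.Prime.coprime_iff_not_dvd hq).mpr hqM)
  obtain ⟨a, b, hab⟩ := hcop
  exact ⟨⟨hq, hN, a, -b, by linear_combination hab⟩⟩

namespace ALData

variable {N M q : ℕ} (D : ALData N M q)

include D in
theorem hNZ : (N : ℤ) = q * M := by rw [D.hN]; push_cast; rfl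

/-- the element `β₀ = [x y; M q]` of `Γ₀(M)`. -/
def beta : SL(2, ℤ) := ⟨!![D.x, D.y; (M : ℤ), (q : ℤ)], by
  rw [Matrix.det_fin_two_of]; linear_combination D.h⟩

/-- the integral matrix `W = [qx y; N q]`. -/
def intW : Matrix (Fin 2) (Fin 2) ℤ := !![q * D.x, D.y; (N : ℤ), (q : ℤ)]

/-- its adjugate. -/
def intW' : Matrix (Fin 2) (Fin 2) ℤ := !![(q : ℤ), -D.y; -(N : ℤ), q * D.x]

/-- `W = β₀ * diag(q, 1)` in `GL₂(ℝ)`. -/
def W : GL (Fin 2) ℝ := mapGL ℝ D.beta * ModularForm.heckeDiagMatrix q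

theorem val_W : ((D.W : GL (Fin 2) ℝ) : Matrix (Fin 2) (Fin 2) ℝ) = D.intW.map (Int.cast) := by
  rw [W, Units.val_mul, val_mapGL, ModularForm.val_heckeDiagMatrix D.hq.ne_zero]
  have h : (N : ℝ) = q * M := by exact_mod_cast D.hN
  ext i j
  fin_cases i <;> fin_cases j <;>
    simp [beta, intW, Matrix.mul_apply, Fin.sum_univ_two, h, mul_comm]

theorem intW_mul_intW' : D.intW * D.intW' = (q : ℤ) • (1 : Matrix (Fin 2) (Fin 2) ℤ) := by
  have h := D.h
  have hN := D.hNZ
  ext i j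
  fin_cases i <;> fin_cases j <;>
    simp [intW, intW', Matrix.mul_apply, Fin.sum_univ_two]
  · rw [hN]; linear_combination (q : ℤ) * h
  · ring
  · ring
  · rw [hN]; linear_combination (q : ℤ) * h

/-- Multiplicative relation in `GL₂(ℝ)` from integral matrices. -/
theorem GL_eq_of_int {A B C E : GL (Fin 2) ℝ} {a b c e : Matrix (Fin 2) (Fin 2) ℤ}
    (hA : (A : Matrix (Fin 2) (Fin 2) ℝ) = a.map (Int.cast))
    (hB : (B : Matrix (Fin 2) (Fin 2) ℝ) = b.map (Int.cast))
    (hC : (C : Matrix (Fin 2) (Fin 2) ℝ) = c.map (Int.cast))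
    (hE : (E : Matrix (Fin 2) (Fin 2) ℝ) = e.map (Int.cast))
    (h : a * b = c * e) : A * B = C * E := by
  rw [← Units.val_inj, Units.val_mul, Units.val_mul, hA, hB, hC, hE, ← map_intCast_mul,
    ← map_intCast_mul, h]

theorem GL_eq_iff_int {A B C E : GL (Fin 2) ℝ} {a b c e : Matrix (Fin 2) (Fin 2) ℤ}
    (hA : (A : Matrix (Fin 2) (Fin 2) ℝ) = a.map (Int.cast))
    (hB : (B : Matrix (Fin 2) (Fin 2) ℝ) = b.map (Int.cast))
    (hC : (C : Matrix (Fin 2) (Fin 2) ℝ) = c.map (Int.cast))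
    (hE : (E : Matrix (Fin 2) (Fin 2) ℝ) = e.map (Int.cast)) :
    A * B = C * E ↔ a * b = c * e := by
  rw [← Units.val_inj, Units.val_mul, Units.val_mul, hA, hB, hC, hE, ← map_intCast_mul,
    ← map_intCast_mul]
  exact map_intCast_injective.eq_iff

/-- `W` normalises `Γ₀(N)`. -/
theorem exists_W_mul (g : SL(2, ℤ)) (hg : g ∈ Gamma0 N) :
    ∃ g' ∈ Gamma0 N, D.W * mapGL ℝ g = mapGL ℝ g' * D.W := by
  have h := D.h
  have hN := D.hNZ
  have hd := det_SL g
  have hq0 : (q : ℤ) ≠ 0 := by exact_mod_cast D.hq.ne_zero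
  obtain ⟨c, hc⟩ : (N : ℤ) ∣ g 1 0 :=
    (ZMod.intCast_zmod_eq_zero_iff_dvd _ _).mp (Gamma0_mem.mp hg)
  set a := g 0 0 with ha
  set b := g 0 1 with hb
  set d := g 1 1 with hd'
  rw [hc] at hd
  have hgm : (g : Matrix (Fin 2) (Fin 2) ℤ) = !![a, b; (N : ℤ) * c, d] := by
    ext i j
    fin_cases i <;> fin_cases j <;> simp [ha, hb, hc, hd']
  refine ⟨⟨!![q * D.x * a + D.y * N * c - N * D.x * b - M * D.y * d,
      -D.y * D.x * a - D.y ^ 2 * M * c + D.x * (q * D.x * b + D.y * d);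
      (N : ℤ) * (a + q * c - M * b - d),
      -D.y * M * (a + q * c) + D.x * (N * b + q * d)], ?_⟩, ?_, ?_⟩
  · rw [Matrix.det_fin_two_of]
    rw [hN] at hd ⊢
    linear_combination (a * d - b * (q * M * c)) * ((q : ℤ) * D.x - M * D.y + 1) * h + hd
  · refine Gamma0_mem.mpr ((ZMod.intCast_zmod_eq_zero_iff_dvd _ _).mpr ?_)
    exact ⟨a + q * c - M * b - d, rfl⟩
  · refine GL_eq_of_int D.val_W (val_mapGL g) (val_mapGL _) D.val_W ?_
    rw [hgm]
    ext i j
    fin_cases i <;> fin_cases j <;>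
      simp [intW, Matrix.mul_apply, Fin.sum_univ_two] <;> rw [hN]
    · linear_combination (-(q : ℤ) * D.x * a - q * D.y * M * c) * h
    · linear_combination (-(q : ℤ) * D.x * b - D.y * d) * h
    · linear_combination (-(q : ℤ) * M * a - q * q * M * c) * h
    · linear_combination (-(q : ℤ) * M * b - q * d) * h

/-- the other direction. -/
theorem exists_mul_W (g : SL(2, ℤ)) (hg : g ∈ Gamma0 N) :
    ∃ g' ∈ Gamma0 N, mapGL ℝ g * D.W = D.W * mapGL ℝ g' := by
  have h := D.h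
  have hN := D.hNZ
  have hd := det_SL g
  obtain ⟨c, hc⟩ : (N : ℤ) ∣ g 1 0 :=
    (ZMod.intCast_zmod_eq_zero_iff_dvd _ _).mp (Gamma0_mem.mp hg)
  set a := g 0 0 with ha
  set b := g 0 1 with hb
  set d := g 1 1 with hd'
  rw [hc] at hd
  have hgm : (g : Matrix (Fin 2) (Fin 2) ℤ) = !![a, b; (N : ℤ) * c, d] := by
    ext i j
    fin_cases i <;> fin_cases j <;> simp [ha, hb, hc, hd']
  refine ⟨⟨!![a * q * D.x + b * N - D.y * M * (q * c * D.x + d),
      a * D.y + b * q - D.y * (M * c * D.y + d);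
      (N : ℤ) * (-D.x * a - M * b + D.x * (q * c * D.x + d)),
      -M * (a * D.y + b * q) + D.x * (N * c * D.y + d * q)], ?_⟩, ?_, ?_⟩
  · rw [Matrix.det_fin_two_of]
    rw [hN] at hd ⊢
    linear_combination (a * d - b * (q * M * c)) * ((q : ℤ) * D.x - M * D.y + 1) * h + hd
  · refine Gamma0_mem.mpr ((ZMod.intCast_zmod_eq_zero_iff_dvd _ _).mpr ?_)
    exact ⟨-D.x * a - M * b + D.x * (q * c * D.x + d), rfl⟩
  · refine GL_eq_of_int (val_mapGL g) D.val_W D.val_W (val_mapGL _) ?_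
    rw [hgm]
    ext i j
    fin_cases i <;> fin_cases j <;>
      simp [intW, Matrix.mul_apply, Fin.sum_univ_two] <;> rw [hN]
    · linear_combination (-(q : ℤ) * D.x * a - q * M * b) * h
    · linear_combination (-D.y * a - q * b) * h
    · linear_combination (-(q : ℤ) * q * M * c * D.x - q * M * d) * h
    · linear_combination (-(q : ℤ) * M * c * D.y - q * d) * h

theorem W_mul_mem {γ : GL (Fin 2) ℝ} (hγ : γ ∈ (Gamma0 N : Subgroup (GL (Fin 2) ℝ))) :
    ∃ γ' ∈ (Gamma0 N : Subgroup (GL (Fin 2) ℝ)), D.W * γ = γ' * D.W := by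
  obtain ⟨g, hg, rfl⟩ := hγ
  obtain ⟨g', hg', h⟩ := D.exists_W_mul g hg
  exact ⟨_, ⟨g', hg', rfl⟩, h⟩

theorem mul_W_mem {γ : GL (Fin 2) ℝ} (hγ : γ ∈ (Gamma0 N : Subgroup (GL (Fin 2) ℝ))) :
    ∃ γ' ∈ (Gamma0 N : Subgroup (GL (Fin 2) ℝ)), γ * D.W = D.W * γ' := by
  obtain ⟨g, hg, rfl⟩ := hγ
  obtain ⟨g', hg', h⟩ := D.exists_mul_W g hg
  exact ⟨_, ⟨g', hg', rfl⟩, h⟩

open ConjAct Pointwise in
theorem conj_W_Gamma0 : toConjAct D.W • (Gamma0 N : Subgroup (GL (Fin 2) ℝ)) =
    (Gamma0 N : Subgroup (GL (Fin 2) ℝ)) := by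
  ext γ
  rw [Subgroup.mem_pointwise_smul_iff_inv_smul_mem, ← map_inv, ConjAct.toConjAct_smul, inv_inv]
  constructor
  · intro h
    obtain ⟨γ', hγ', h2⟩ := D.W_mul_mem h
    have : γ = γ' := by
      apply mul_right_cancel (b := D.W)
      rw [← h2]
      group
    rwa [this]
  · intro h
    obtain ⟨γ', hγ', h2⟩ := D.mul_W_mem h
    have : D.W⁻¹ * γ * D.W = γ' := by
      rw [mul_assoc, h2]
      group
    rwa [this]

theorem det_W : ((D.W.det : ℝˣ) : ℝ) = q := by
  rw [Matrix.GeneralLinearGroup.val_det_apply, D.val_W]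
  have h1 : (D.intW.map (Int.cast) : Matrix (Fin 2) (Fin 2) ℝ).det = ((D.intW.det : ℤ) : ℝ) := by
    rw [Matrix.det_fin_two, Matrix.det_fin_two]
    simp
  have h2 : D.intW.det = q := by
    rw [intW, Matrix.det_fin_two_of]
    have h := D.h
    have hN := D.hNZ
    rw [hN]
    linear_combination (q : ℤ) * h
  rw [h1, h2]
  simp

theorem det_W_pos : (0 : ℝ) < ((D.W.det : ℝˣ) : ℝ) := by
  rw [D.det_W]
  exact_mod_cast D.hq.pos

variable {k : ℤ}

/-- The (unnormalised) Atkin-Lehner operator. -/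
def w (k : ℤ) : CuspForm (Gamma0 N) k →ₗ[ℂ] CuspForm (Gamma0 N) k where
  toFun f :=
    { toFun := (⇑f : UpperHalfPlane → ℂ) ∣[k] D.W
      slash_action_eq' := fun γ hγ => by
        obtain ⟨γ', hγ', h⟩ := D.W_mul_mem hγ
        rw [← SlashAction.slash_mul, h, SlashAction.slash_mul,
          SlashInvariantFormClass.slash_action_eq f γ' hγ']
      holo' := (CuspFormClass.holo f).slash k D.W
      zero_at_cusps' := fun {c} hc => by
        rw [← OnePoint.IsZeroAt.smul_iff]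
        apply CuspFormClass.zero_at_cusps f
        have := hc.smul D.W
        rwa [D.conj_W_Gamma0] at this }
  map_add' f g := DFunLike.coe_injective (SlashAction.add_slash k D.W ⇑f ⇑g)
  map_smul' c f := DFunLike.coe_injective (by
    show (c • (⇑f : UpperHalfPlane → ℂ)) ∣[k] D.W = c • ((⇑f : UpperHalfPlane → ℂ) ∣[k] D.W)
    rw [ModularForm.smul_slash]
    rw [UpperHalfPlane.σ, if_pos D.det_W_pos]
    rfl)

@[simp] theorem coe_w (f : CuspForm (Gamma0 N) k) :
    (⇑(D.w k f) : UpperHalfPlane → ℂ) = (⇑f : UpperHalfPlane → ℂ) ∣[k] D.W := rfl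

/-- The Hecke operator as a sum over `HIdx`. -/
theorem coe_heckeOp_eq_sum {N : ℕ} [NeZero N] (k : ℤ) (p : Nat.Primes)
    (f : CuspForm (Gamma0 N) k) :
    haveI : Fact (p : ℕ).Prime := ⟨p.2⟩
    (⇑(heckeOp N k p f) : UpperHalfPlane → ℂ) =
      ∑ x : HIdx N p, (⇑f : UpperHalfPlane → ℂ) ∣[k] hrep p x.1 := by
  classical
  have : Fact (p : ℕ).Prime := ⟨p.2⟩
  have : NeZero (p : ℕ) := ⟨p.2.ne_zero⟩
  have hU : ∑ j : ZMod p, (⇑f : UpperHalfPlane → ℂ) ∣[k] ModularForm.heckeMatrix p j.val =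
      ModularForm.heckeU k p ⇑f := by
    rw [ModularForm.heckeU_def]
    refine Finset.sum_bij' (fun j _ => j.val) (fun i _ => (i : ZMod p)) ?_ ?_ ?_ ?_ ?_
    · intro j _
      exact Finset.mem_range.mpr (ZMod.val_lt j)
    · intro i _
      exact Finset.mem_univ _
    · intro j _
      exact ZMod.natCast_zmod_val j
    · intro i hi
      exact ZMod.val_natCast_of_lt (Finset.mem_range.mp hi)
    · intro j _
      rfl
  by_cases hpN : (p : ℕ) ∣ N
  · rw [heckeOp_of_dvd hpN, CuspForm.coe_heckeULin_apply, ← hU]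
    refine Finset.sum_bij' (fun j _ => (⟨some j, fun _ => by simp⟩ : HIdx N p))
      (fun x _ => x.1.get (by
        rcases hx : x.1 with _ | j
        · exact absurd hx (x.2 hpN)
        · simp)) ?_ ?_ ?_ ?_ ?_
    · intro j _
      exact Finset.mem_univ _
    · intro x _
      exact Finset.mem_univ _
    · intro j _
      rfl
    · intro x _
      apply Subtype.ext
      simp
    · intro j _
      rfl
  · rw [heckeOp_of_not_dvd hpN, CuspForm.coe_heckeTLin_apply, ModularForm.heckeT_eq_heckeU_add,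
      ← hU]
    have e : HIdx N p ≃ Option (ZMod p) :=
      ⟨fun x => x.1, fun x => ⟨x, fun h => absurd h hpN⟩, fun x => rfl, fun x => rfl⟩
    have h1 : ∑ x : HIdx N p, (⇑f : UpperHalfPlane → ℂ) ∣[k] hrep p x.1 =
        ∑ x : Option (ZMod p), (⇑f : UpperHalfPlane → ℂ) ∣[k] hrep p x := by
      refine Finset.sum_bij' (fun x _ => x.1) (fun x _ => ⟨x, fun h => absurd h hpN⟩) ?_ ?_ ?_ ?_ ?_
      · intro x _
        exact Finset.mem_univ _
      · intro x _
        exact Finset.mem_univ _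
      · intro x _
        rfl
      · intro x _
        rfl
      · intro x _
        rfl
    rw [h1, Fintype.sum_option, add_comm]
    rfl

/-- `W` conjugates Hecke cosets at `p ≠ q` into each other. -/
theorem exists_hecke_W {p : ℕ} (hp : p.Prime) (hpq : p ≠ q) (x : HIdx N p) :
    ∃ (y : HIdx N p), ∃ g' ∈ Gamma0 N, hrep p x.1 * D.W = mapGL ℝ g' * (D.W * hrep p y.1) := by
  have h := D.h
  have hN := D.hNZ
  have hdet := det_intRep p x.1
  obtain ⟨a, b, d, hR⟩ : ∃ a b d : ℤ, intRep p x.1 = !![a, b; 0, d] := by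
    rcases x.1 with _ | j
    · exact ⟨_, _, _, rfl⟩
    · exact ⟨_, _, _, rfl⟩
  have had : a * d = p := by
    rw [hR, Matrix.det_fin_two_of] at hdet
    linear_combination hdet
  -- the conjugated matrix
  set B : Matrix (Fin 2) (Fin 2) ℤ :=
    !![a * q * D.x + b * N - D.y * M * d, a * D.y + b * q - D.y * d;
      (N : ℤ) * (-D.x * a - M * b + D.x * d), -M * (a * D.y + b * q) + q * D.x * d] with hB
  have hBeq : intRep p x.1 * D.intW = D.intW * B := by
    rw [hR, hB]
    ext i j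
    fin_cases i <;> fin_cases j <;>
      simp [intW, Matrix.mul_apply, Fin.sum_univ_two] <;> try rw [hN]
    · linear_combination (-(q : ℤ) * D.x * a - q * M * b) * h
    · linear_combination (-D.y * a - q * b) * h
    · linear_combination (- (q : ℤ) * M * d) * h
    · linear_combination (- (q : ℤ) * d) * h
  have hBdet : B 0 0 * B 1 1 - B 0 1 * B 1 0 = p * 1 := by
    rw [← had, hB]
    simp only [Matrix.of_apply, Matrix.cons_val', Matrix.cons_val_zero, Matrix.cons_val_one,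
      Matrix.cons_val_fin_one]
    rw [hN]
    linear_combination (a * d) * ((q : ℤ) * D.x - M * D.y + 1) * h
  obtain ⟨y, B', hB', hB'det, hB'N, -⟩ := exists_factor (N := N) hp B 1 hBdet ⟨_, rfl⟩ (by
    intro hpN hpa
    have hpM : (p : ℤ) ∣ M := by
      have h1 : p ∣ q * M := D.hN ▸ hpN
      rcases hp.dvd_mul.mp h1 with h2 | h2
      · exact absurd ((Nat.prime_dvd_prime_iff_eq hp D.hq).mp h2) hpq
      · exact_mod_cast h2
    have ha : a = 1 := by
      obtain ⟨x, hx⟩ := x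
      rcases x with _ | j
      · exact absurd rfl (hx hpN)
      · have := congrFun (congrFun hR 0) 0
        simpa using this.symm
    have h3 : (p : ℤ) ∣ a * q * D.x := by
      have h4 : (p : ℤ) ∣ b * N - D.y * M * d := by
        refine dvd_sub (dvd_mul_of_dvd_right (Int.natCast_dvd_natCast.mpr hpN) _) ?_
        exact dvd_mul_of_dvd_left (dvd_mul_of_dvd_right hpM _) _
      have h5 : a * q * D.x = B 0 0 - (b * N - D.y * M * d) := by
        rw [hB]; simp
      rw [h5]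
      exact dvd_sub hpa h4
    have h6 : (p : ℤ) ∣ 1 := by
      have h7 : (1 : ℤ) = a * q * D.x - M * D.y := by rw [ha]; linear_combination -h
      rw [h7]
      exact dvd_sub h3 (dvd_mul_of_dvd_left hpM _)
    have h8 : p ∣ 1 := by exact_mod_cast h6
    exact hp.one_lt.ne' (Nat.dvd_one.mp h8))
  -- `B = B' * intRep y`, `B' ∈ Γ₀(N)`
  set g : SL(2, ℤ) := ⟨B', by rw [Matrix.det_fin_two]; exact hB'det⟩ with hg
  have hgN : g ∈ Gamma0 N :=
    Gamma0_mem.mpr ((ZMod.intCast_zmod_eq_zero_iff_dvd _ _).mpr hB'N)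
  obtain ⟨g', hg', hW⟩ := D.exists_W_mul g hgN
  refine ⟨y, g', hg', ?_⟩
  have h1 : hrep p x.1 * D.W = D.W * (mapGL ℝ g * hrep p y.1) := by
    refine GL_eq_of_int (val_hrep hp.ne_zero _) D.val_W D.val_W
      (e := B' * intRep p y.1) ?_ ?_
    · rw [Units.val_mul, val_mapGL, val_hrep hp.ne_zero, ← map_intCast_mul]
    · rw [hBeq, hB']
  rw [h1, ← mul_assoc, hW, mul_assoc]

/-- uniqueness of Hecke cosets. -/
theorem hrep_unique {p : ℕ} (hp : p.Prime) {x y : Option (ZMod p)} {g : SL(2, ℤ)}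
    (h : hrep p x = mapGL ℝ g * hrep p y) : x = y := by
  have h1 : intRep p x = (g : Matrix (Fin 2) (Fin 2) ℤ) * intRep p y := by
    have h2 := congrArg (fun A : GL (Fin 2) ℝ => (A : Matrix (Fin 2) (Fin 2) ℝ)) h
    simp only [Units.val_mul] at h2
    rw [val_hrep hp.ne_zero, val_hrep hp.ne_zero, val_mapGL, ← map_intCast_mul] at h2
    exact map_intCast_injective h2
  refine intRep_unique hp 1 (fun h2 => ?_) _ _ _ (by rw [one_smul]; exact h1)
  have h3 : p ∣ 1 := by exact_mod_cast h2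
  exact hp.one_lt.ne' (Nat.dvd_one.mp h3)

/-- `w_q` commutes with the Hecke operators at `p ≠ q`. -/
theorem w_heckeOp [NeZero N] (k : ℤ) (p : Nat.Primes) (hpq : (p : ℕ) ≠ q)
    (f : CuspForm (Gamma0 N) k) : D.w k (heckeOp N k p f) = heckeOp N k p (D.w k f) := by
  classical
  apply DFunLike.coe_injective
  rw [coe_w, coe_heckeOp_eq_sum, coe_heckeOp_eq_sum, SlashAction.sum_slash]
  have : Fact (p : ℕ).Prime := ⟨p.2⟩
  choose σ g hg hσ using fun x : HIdx N p => D.exists_hecke_W p.2 hpq x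
  have hinj : Function.Injective σ := by
    intro x x' hxx'
    have h1 := hσ x
    have h2 := hσ x'
    rw [hxx'] at h1
    apply Subtype.ext
    apply hrep_unique p.2 (g := g x * (g x')⁻¹)
    apply mul_right_cancel (b := D.W)
    rw [h1, mul_assoc, h2, map_mul, map_inv]
    group
  have hbij : Function.Bijective σ := Finite.injective_iff_bijective.mp hinj
  rw [← hbij.sum_comp (fun y : HIdx N p => (⇑(D.w k f) : UpperHalfPlane → ℂ) ∣[k] hrep p y.1)]
  refine Finset.sum_congr rfl fun x _ => ?_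
  have hinv : (⇑f : UpperHalfPlane → ℂ) ∣[k] (mapGL ℝ (g x)) = ⇑f :=
    SlashInvariantFormClass.slash_action_eq f (mapGL ℝ (g x))
      (show mapGL ℝ (g x) ∈ (Gamma0 N : Subgroup (GL (Fin 2) ℝ)) from
        Subgroup.mem_map_of_mem _ (hg x))
  rw [← SlashAction.slash_mul, hσ x, SlashAction.slash_mul, hinv, SlashAction.slash_mul, coe_w]

end ALData

end Fermat.Agent.Oldforms

end
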